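/-
S31 (`CuspForm.HeckeGaloisRepDatum.isUnramifiedAt_of_notMem`), **contract-first skeleton** (helper27).

`s31_of_contracts : S30Stmt → ReducedStmt → SepStmt → TracePairStmt → (the literal frozen S31)`.

Contracts (each is a `Prop`; the proofs land in separate files):

* `Skeleton4.S30Stmt`  : the statement S30 (literal shape), Program J;
* `PeterssonStmt`      : chapter PET — a definite biadditive form on `S_2(Γ_0(N))` for which every
                         `T_ℓ`, `ℓ ∤ N`, is self-adjoint;  `reduced_of_petersson` (proved here) turns it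
                         into `ReducedStmt : IsReduced (heckeAlgebra N 2 S)` for `S ⊇ {q ∣ N}`;
* `SepStmt`            : chapter SEP (pure algebra) — a reduced ring `R`, finite and torsion free over
                         `ℤ`, has a finite family of characters `χ_i : R → O_i` to complete DVRs of
                         characteristic `0` with finite residue field of characteristic `p` which
                         detects `p`-adic smallness: `∀ m, ∃ n, (∀ i, χ_i r ∈ 𝔪_i ^ n) → r ∈ p ^ m R`;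
* `TracePairStmt`      : chapter PAIR (pure algebra) — for a residually absolutely irreducible
                         `ρ : GaloisRepAdic T`, `tr ρ(g τ) = tr ρ(g)` for all `g` implies `ρ τ = 1`.

Proved here (Mathlib + `ChebQbar23` + `S22`): Lucas sequences for traces of powers in rank two
(`trace_pow_eq_lucasV`), congruent endomorphisms have congruent traces (`trace_sub_mem`),
`𝔪_C ^ (e n) ∩ B ⊂ 𝔪_B ^ n` for a local injective extension of DVRs (`exists_ramification_bound`),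
approximation of `tr ρ(g)` by `ψ(V_j(T_ℓ, ℓ))` (`exists_level_trace`), the per-character congruence
from S30 (`exists_level_char`), the invariance of the trace (`trace_mul_inertia`) and the assembly.
-/
import Mathlib
import Fermat.Prelude.Def_CuspForm_HeckeGaloisRepDatum
import Fermat.Agent.ES.J7.Skeleton4
import Fermat.Agent.ES.GAL.ChebQbar23
import Fermat.Agent.S22

set_option autoImplicit false
set_option linter.style.haveILetI false

open Polynomial IsLocalRing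

namespace Fermat.Agent.ES.S31.Skeleton27

/-- `ℚ̄`. -/
abbrev Qbar : Type := AlgebraicClosure ℚ
/-- The absolute Galois group of `ℚ`. -/
abbrev GQ : Type := Qbar ≃ₐ[ℚ] Qbar

/-! ### Lucas sequences and traces of powers in rank two -/

/-- The Lucas sequence `V_n(t, d)`: `V_0 = 2`, `V_1 = t`, `V_{n+2} = t V_{n+1} - d V_n`. -/
def lucasV {R : Type*} [CommRing R] (t d : R) : ℕ → R
  | 0 => 2
  | 1 => t
  | (n + 2) => t * lucasV t d (n + 1) - d * lucasV t d n

theorem map_lucasV {R R' : Type*} [CommRing R] [CommRing R'] (f : R →+* R') (t d : R) (n : ℕ) :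
    f (lucasV t d n) = lucasV (f t) (f d) n := by
  induction n using Nat.strong_induction_on with
  | _ n ih =>
    match n with
    | 0 => simp only [lucasV]; exact map_ofNat f 2
    | 1 => simp [lucasV]
    | (k + 2) =>
      simp only [lucasV, map_sub, map_mul]
      rw [ih (k + 1) (by omega), ih k (by omega)]

section Trace

variable {A V : Type*} [CommRing A] [AddCommGroup V] [Module A V] [Module.Free A V]
  [Module.Finite A V]

theorem trace_of_charpoly (hV : Module.finrank A V = 2) (f : Module.End A V) (t d : A)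
    (hcp : f.charpoly = X ^ 2 - C t * X + C d) : LinearMap.trace A V f = t := by
  classical
  rcases subsingleton_or_nontrivial A with hs | hnt
  · exact Subsingleton.elim _ _
  let b := Module.Free.chooseBasis A V
  have hcard : Fintype.card (Module.Free.ChooseBasisIndex A V) = 2 := by
    rw [← Module.finrank_eq_card_chooseBasisIndex, hV]
  have : Nonempty (Module.Free.ChooseBasisIndex A V) := by
    rw [← Fintype.card_pos_iff, hcard]; norm_num
  rw [LinearMap.trace_eq_matrix_trace A b, Matrix.trace_eq_neg_charpoly_coeff,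
    LinearMap.charpoly_toMatrix, hcp, hcard]
  simp [coeff_C]

theorem sq_of_charpoly (f : Module.End A V) (t d : A)
    (hcp : f.charpoly = X ^ 2 - C t * X + C d) : f * f = t • f - d • 1 := by
  have h := LinearMap.aeval_self_charpoly f
  rw [hcp] at h
  simp only [map_add, map_sub, map_mul, map_pow, aeval_X, aeval_C] at h
  rw [sq, Algebra.algebraMap_eq_smul_one, Algebra.algebraMap_eq_smul_one, smul_mul_assoc,
    one_mul] at h
  calc f * f = (f * f - t • f + d • 1) + (t • f - d • 1) := by abel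
    _ = _ := by rw [h, zero_add]

theorem trace_pow_eq_lucasV (hV : Module.finrank A V = 2) (f : Module.End A V) (t d : A)
    (hcp : f.charpoly = X ^ 2 - C t * X + C d) (n : ℕ) :
    LinearMap.trace A V (f ^ n) = lucasV t d n := by
  induction n using Nat.strong_induction_on with
  | _ n ih =>
    match n with
    | 0 => rw [pow_zero, LinearMap.trace_one, hV]; simp [lucasV]
    | 1 => rw [pow_one, trace_of_charpoly hV f t d hcp]; rfl
    | (k + 2) =>
      have h1 : f ^ (k + 2) = t • f ^ (k + 1) - d • f ^ k := by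
        rw [pow_add, pow_two, sq_of_charpoly f t d hcp, mul_sub, mul_smul_comm, mul_smul_comm,
          mul_one, ← pow_succ]
      rw [h1, map_sub, map_smul, map_smul, ih (k + 1) (by omega), ih k (by omega)]
      simp [lucasV]

/-- Two endomorphisms of a finite free module which are congruent modulo `I` have congruent
traces. -/
theorem trace_sub_mem (I : Ideal A) (f g : Module.End A V)
    (h : ∀ v, f v - g v ∈ I • (⊤ : Submodule A V)) :
    LinearMap.trace A V f - LinearMap.trace A V g ∈ I := by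
  classical
  let b := Module.Free.chooseBasis A V
  rw [← map_sub, LinearMap.trace_eq_matrix_trace A b, Matrix.trace]
  refine Ideal.sum_mem _ fun i _ => ?_
  rw [Matrix.diag_apply, LinearMap.toMatrix_apply, LinearMap.sub_apply]
  refine Submodule.smul_induction_on (h (b i)) (fun r hr m _ => ?_) (fun x y hx hy => ?_)
  · rw [map_smul, Finsupp.smul_apply, smul_eq_mul]
    exact I.mul_mem_right _ hr
  · rw [map_add, Finsupp.add_apply]
    exact I.add_mem hx hy

omit [Module.Free A V] [Module.Finite A V] in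
theorem map_mem_smul_top (I : Ideal A) (f : Module.End A V) {v : V}
    (hv : v ∈ I • (⊤ : Submodule A V)) : f v ∈ I • (⊤ : Submodule A V) := by
  refine Submodule.smul_induction_on hv (fun r hr m _ => ?_) (fun x y hx hy => ?_)
  · rw [map_smul]
    exact Submodule.smul_mem_smul hr Submodule.mem_top
  · rw [map_add]
    exact Submodule.add_mem _ hx hy

end Trace

/-! ### Discrete valuation rings -/

/-- In a local injective extension `B ⊂ C` of discrete valuation rings the `𝔪_C`-adic topology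
induces the `𝔪_B`-adic one: there is `e` with `𝔪_C ^ (e n) ∩ B ⊂ 𝔪_B ^ n`. -/
theorem exists_ramification_bound {B C : Type*} [CommRing B] [IsDomain B]
    [IsDiscreteValuationRing B] [CommRing C] [IsDomain C] [IsDiscreteValuationRing C]
    [Algebra B C] [IsLocalHom (algebraMap B C)] (hinj : Function.Injective (algebraMap B C)) :
    ∃ e : ℕ, ∀ (n : ℕ) (x : B), algebraMap B C x ∈ maximalIdeal C ^ (e * n) →
      x ∈ maximalIdeal B ^ n := by
  obtain ⟨ϖB, hB⟩ := IsDiscreteValuationRing.exists_irreducible B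
  obtain ⟨ϖC, hC⟩ := IsDiscreteValuationRing.exists_irreducible C
  have h0 : algebraMap B C ϖB ≠ 0 := fun h => hB.ne_zero (hinj (h.trans (map_zero _).symm))
  obtain ⟨e, u, hu⟩ := IsDiscreteValuationRing.eq_unit_mul_pow_irreducible h0 hC
  have he : e ≠ 0 := by
    rintro rfl
    rw [pow_zero, mul_one] at hu
    have h1 : IsUnit (algebraMap B C ϖB) := hu ▸ u.isUnit
    exact hB.not_isUnit (isUnit_of_map_unit (algebraMap B C) _ h1)
  refine ⟨e, fun n x hx => ?_⟩
  rw [hB.maximalIdeal_eq, Ideal.span_singleton_pow, Ideal.mem_span_singleton]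
  rw [hC.maximalIdeal_eq, Ideal.span_singleton_pow, Ideal.mem_span_singleton] at hx
  by_cases hx0 : x = 0
  · rw [hx0]; exact dvd_zero _
  obtain ⟨k, v, hv⟩ := IsDiscreteValuationRing.eq_unit_mul_pow_irreducible hx0 hB
  have h2 : algebraMap B C x = (algebraMap B C v * (u : C) ^ k) * ϖC ^ (e * k) := by
    rw [hv, map_mul, map_pow, hu, mul_pow, ← pow_mul]
    ring
  have hunit : IsUnit (algebraMap B C v * (u : C) ^ k) :=
    (v.isUnit.map (algebraMap B C)).mul (u.isUnit.pow k)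
  rw [h2, hunit.dvd_mul_left] at hx
  have h3 : e * n ≤ e * k := (pow_dvd_pow_iff hC.ne_zero hC.not_isUnit).mp hx
  have h4 : n ≤ k := Nat.le_of_mul_le_mul_left h3 (Nat.pos_of_ne_zero he)
  rw [hv]
  exact Dvd.dvd.mul_left (pow_dvd_pow _ h4) _

/-! ### The contracts -/

/-- **(SEP) datum** for a commutative ring `R` and a prime `p`: a finite family of characters of
`R` with values in complete discrete valuation rings of characteristic zero with finite residue
field of characteristic `p`, which jointly detect `p`-adic smallness in `R`. -/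
structure SepDatum (p : ℕ) (R : Type) [CommRing R] : Type 1 where
  ι : Type
  [finite : Finite ι]
  O : ι → Type
  [commRing : ∀ i, CommRing (O i)]
  [isDomain : ∀ i, IsDomain (O i)]
  [dvr : ∀ i, IsDiscreteValuationRing (O i)]
  [complete : ∀ i, IsAdicComplete (maximalIdeal (O i)) (O i)]
  [finiteResidue : ∀ i, Finite (ResidueField (O i))]
  [charZero : ∀ i, CharZero (O i)]
  p_mem : ∀ i, (p : O i) ∈ maximalIdeal (O i)
  χ : ∀ i, R →+* O i
  sep : ∀ m : ℕ, ∃ n : ℕ, ∀ r : R, (∀ i, χ i r ∈ maximalIdeal (O i) ^ n) →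
    ∃ s : R, r = (p : R) ^ m * s

attribute [instance] SepDatum.finite SepDatum.commRing SepDatum.isDomain SepDatum.dvr
  SepDatum.complete SepDatum.finiteResidue SepDatum.charZero

/-- **Contract (SEP)** (pure algebra, Mathlib + `CompleteDVR1`). -/
def SepStmt : Prop :=
  ∀ (p : ℕ) [Fact p.Prime] (R : Type) [CommRing R] [Module.Finite ℤ R] [IsAddTorsionFree R]
    [IsReduced R], Nonempty (SepDatum p R)

/-- **Contract (RED)** (output of the Petersson chapter). -/
def ReducedStmt : Prop :=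
  ∀ (N : ℕ) [NeZero N] (S : Finset ℕ), (∀ q : ℕ, q.Prime → q ∣ N → q ∈ S) →
    IsReduced (CuspForm.heckeAlgebra N 2 (↑S : Set ℕ))

/-- **Contract (PET)**: a definite biadditive form on `S_2(Γ_0(N))` for which the `T_ℓ`, `ℓ ∤ N`,
are self-adjoint (the Petersson product). -/
def PeterssonStmt : Prop :=
  ∀ (N : ℕ) [NeZero N], ∃ B : CuspForm (CongruenceSubgroup.Gamma0 N) 2 →
      CuspForm (CongruenceSubgroup.Gamma0 N) 2 → ℂ,
    (∀ f g h, B (f + g) h = B f h + B g h) ∧ (∀ f g h, B f (g + h) = B f g + B f h) ∧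
    (∀ f, B f f = 0 → f = 0) ∧
    ∀ (ℓ : ℕ) (hℓ : ℓ.Prime) (hℓN : ¬ ℓ ∣ N) (f g : CuspForm (CongruenceSubgroup.Gamma0 N) 2),
      B (CuspForm.heckeTLin 2 hℓ hℓN f) g = B f (CuspForm.heckeTLin 2 hℓ hℓN g)

/-- **Contract (PAIR)**: residually absolutely irreducible + invariance of the trace under right
translation by `τ` ⇒ `ρ τ = 1`. -/
def TracePairStmt : Prop :=
  ∀ (T : Type) [CommRing T] [IsLocalRing T] (ρ : GaloisRepAdic T),
    ρ.residual.IsAbsolutelyIrreducible → ∀ τ : GQ,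
      (∀ g : GQ, LinearMap.trace T ρ.V (ρ.ρ (g * τ)) = LinearMap.trace T ρ.V (ρ.ρ g)) →
        ρ.ρ τ = 1

theorem reduced_of_petersson (h : PeterssonStmt) : ReducedStmt := by
  intro N _ S hNS
  obtain ⟨B, hadd₁, hadd₂, hdef, hsa⟩ := h N
  have hB0 : ∀ f, B f 0 = 0 := fun f => by
    have := hadd₂ f 0 0
    rw [add_zero] at this
    exact left_eq_add.mp this
  -- `ℤ`-linearity in both variables
  let B₁ : CuspForm (CongruenceSubgroup.Gamma0 N) 2 →
      CuspForm (CongruenceSubgroup.Gamma0 N) 2 →+ ℂ := fun f => AddMonoidHom.mk' (B f) (hadd₂ f)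
  let B₂ : CuspForm (CongruenceSubgroup.Gamma0 N) 2 →
      CuspForm (CongruenceSubgroup.Gamma0 N) 2 →+ ℂ :=
    fun g => AddMonoidHom.mk' (fun f => B f g) (fun f f' => hadd₁ f f' g)
  have hsa' : ∀ t ∈ CuspForm.heckeAlgebra N 2 (↑S : Set ℕ), ∀ f g, B (t f) g = B f (t g) := by
    intro t ht
    refine Algebra.adjoin_induction (p := fun t _ => ∀ f g, B (t f) g = B f (t g))
      ?_ ?_ ?_ ?_ ht
    · rintro T (⟨ℓ, hℓ, hℓN, -, rfl⟩ | ⟨q, hqN, hq, hqS, rfl⟩)
      · exact hsa ℓ hℓ hℓN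
      · exact absurd (hNS q hq hqN) (by simpa using hqS)
    · intro n f g
      rw [Algebra.algebraMap_eq_smul_one, LinearMap.smul_apply, LinearMap.smul_apply,
        Module.End.one_apply, Module.End.one_apply]
      exact ((B₂ g).map_zsmul n f).trans ((B₁ f).map_zsmul n g).symm
    · intro x y _ _ hx hy f g
      rw [LinearMap.add_apply, LinearMap.add_apply, hadd₁, hadd₂, hx, hy]
    · intro x y hx hy hx' hy' f g
      have hcomm : x * y = y * x := by
        have := mul_comm (⟨x, hx⟩ : CuspForm.heckeAlgebra N 2 (↑S : Set ℕ)) ⟨y, hy⟩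
        exact congrArg Subtype.val this
      rw [Module.End.mul_apply, hx', hy', ← Module.End.mul_apply, hcomm]
  rw [isReduced_iff_pow_one_lt 2 one_lt_two]
  intro t ht
  apply Subtype.ext
  refine LinearMap.ext fun f => ?_
  apply hdef
  rw [hsa' t.1 t.2, ← Module.End.mul_apply, ← sq]
  have : (t.1) ^ 2 = 0 := by
    have := congrArg Subtype.val ht
    simpa using this
  rw [this, LinearMap.zero_apply, hB0]

/-! ### The trace of a Hecke-type adic representation is approximated by Lucas polynomials in the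
Hecke operators -/

section Approx

variable {N : ℕ} [NeZero N] {S : Finset ℕ}

/-- The hypothesis "`ρ` has the Eichler–Shimura characteristic polynomials with respect to
`ψ`". -/
def HasHeckeCharpoly {B : Type} [CommRing B] [IsLocalRing B] (ρ : GaloisRepAdic B)
    (ψ : CuspForm.heckeAlgebra N 2 (↑S : Set ℕ) →+* B) : Prop :=
  ∀ (ℓ : ℕ) (hℓ : ℓ.Prime) (hℓN : ¬ ℓ ∣ N) (hℓS : ℓ ∉ (↑S : Set ℕ)),
    ∀ A : ValuationSubring Qbar, A.LiesOverPrime ℓ →
      ∀ σ : GQ, A.IsFrobeniusAt σ ℓ →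
        LinearMap.charpoly (ρ.ρ σ) =
          X ^ 2 - C (ψ (CuspForm.heckeAlgebra.T hℓ hℓN hℓS)) * X + C ((ℓ : B))

/-- The element `V_j(T_ℓ, ℓ)` of the Hecke algebra. -/
noncomputable def lucasT {ℓ : ℕ} (hℓ : ℓ.Prime) (hℓN : ¬ ℓ ∣ N) (hℓS : ℓ ∉ (↑S : Set ℕ)) (j : ℕ) :
    CuspForm.heckeAlgebra N 2 (↑S : Set ℕ) :=
  lucasV (CuspForm.heckeAlgebra.T hℓ hℓN hℓS) (ℓ : CuspForm.heckeAlgebra N 2 (↑S : Set ℕ)) j

theorem trace_frob_pow {B : Type} [CommRing B] [IsLocalRing B] (ρ : GaloisRepAdic B)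
    (ψ : CuspForm.heckeAlgebra N 2 (↑S : Set ℕ) →+* B) (hρ : HasHeckeCharpoly ρ ψ)
    {ℓ : ℕ} (hℓ : ℓ.Prime) (hℓN : ¬ ℓ ∣ N) (hℓS : ℓ ∉ (↑S : Set ℕ))
    (A : ValuationSubring Qbar) (hA : A.LiesOverPrime ℓ) (φ : GQ) (hφ : A.IsFrobeniusAt φ ℓ)
    (j : ℕ) : LinearMap.trace B ρ.V (ρ.ρ (φ ^ j)) = ψ (lucasT hℓ hℓN hℓS j) := by
  rw [map_pow, trace_pow_eq_lucasV ρ.finrank_eq _ _ _ (hρ ℓ hℓ hℓN hℓS A hA φ hφ), lucasT,
    map_lucasV, map_natCast]

/-- The conclusion of `exists_level_trace`, as a predicate on the level `L`. -/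
def TraceLevel {B : Type} [CommRing B] [IsLocalRing B] (ρ : GaloisRepAdic B)
    (ψ : CuspForm.heckeAlgebra N 2 (↑S : Set ℕ) →+* B) (I : Ideal B)
    (L : IntermediateField ℚ Qbar) : Prop :=
  ∀ (ℓ : ℕ) (hℓ : ℓ.Prime) (hℓN : ¬ ℓ ∣ N) (hℓS : ℓ ∉ (↑S : Set ℕ))
    (A : ValuationSubring Qbar), A.LiesOverPrime ℓ → ∀ φ : GQ, A.IsFrobeniusAt φ ℓ →
    ∀ (j : ℕ) (g : GQ), (∀ x ∈ L, (g⁻¹ * φ ^ j) x = x) →
      ψ (lucasT hℓ hℓN hℓS j) - LinearMap.trace B ρ.V (ρ.ρ g) ∈ I

theorem TraceLevel.mono {B : Type} [CommRing B] [IsLocalRing B] {ρ : GaloisRepAdic B}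
    {ψ : CuspForm.heckeAlgebra N 2 (↑S : Set ℕ) →+* B} {I : Ideal B}
    {L L' : IntermediateField ℚ Qbar} (h : TraceLevel ρ ψ I L) (hLL' : L ≤ L') :
    TraceLevel ρ ψ I L' :=
  fun ℓ hℓ hℓN hℓS A hA φ hφ j g hg =>
    h ℓ hℓ hℓN hℓS A hA φ hφ j g fun x hx => hg x (hLL' hx)

/-- **Approximation of traces.**  For every `n` there is a finite level `L` such that
`tr ρ(g) ≡ ψ(V_j(T_ℓ, ℓ))` modulo `𝔪 ^ n` whenever `φ ^ j` agrees with `g` on `L`, `φ` a Frobenius
element at `ℓ ∉ S`. -/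
theorem exists_level_trace {B : Type} [CommRing B] [IsLocalRing B] (ρ : GaloisRepAdic B)
    (ψ : CuspForm.heckeAlgebra N 2 (↑S : Set ℕ) →+* B) (hρ : HasHeckeCharpoly ρ ψ) (n : ℕ) :
    ∃ L : IntermediateField ℚ Qbar, FiniteDimensional ℚ L ∧
      TraceLevel ρ ψ (maximalIdeal B ^ n) L := by
  obtain ⟨L, hL, h⟩ := ρ.isAdicContinuous n
  refine ⟨L, hL, fun ℓ hℓ hℓN hℓS A hA φ hφ j g hg => ?_⟩
  rw [← trace_frob_pow ρ ψ hρ hℓ hℓN hℓS A hA φ hφ j]
  refine trace_sub_mem _ _ _ fun v => ?_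
  have h1 := h (g⁻¹ * φ ^ j) hg v
  have h2 := map_mem_smul_top _ (ρ.ρ g) h1
  rw [map_sub, ← Module.End.mul_apply, ← map_mul, mul_inv_cancel_left] at h2
  exact h2

/-- The per-character congruence: what the internal S30 theorem yields for a character `χ` with
values in a complete DVR, an inertia element `τ` at `q` and a level. -/
def CharLevel {O : Type} [CommRing O] (χ : CuspForm.heckeAlgebra N 2 (↑S : Set ℕ) →+* O)
    (I : Ideal O) (τ : GQ) (L : IntermediateField ℚ Qbar) : Prop :=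
  ∀ (ℓ : ℕ) (hℓ : ℓ.Prime) (hℓN : ¬ ℓ ∣ N) (hℓS : ℓ ∉ (↑S : Set ℕ))
    (A : ValuationSubring Qbar), A.LiesOverPrime ℓ → ∀ φ : GQ, A.IsFrobeniusAt φ ℓ →
  ∀ (ℓ' : ℕ) (hℓ' : ℓ'.Prime) (hℓN' : ¬ ℓ' ∣ N) (hℓS' : ℓ' ∉ (↑S : Set ℕ))
    (A' : ValuationSubring Qbar), A'.LiesOverPrime ℓ' → ∀ φ' : GQ, A'.IsFrobeniusAt φ' ℓ' →
    ∀ (j j' : ℕ) (g : GQ), (∀ x ∈ L, (g⁻¹ * φ ^ j) x = x) →
      (∀ x ∈ L, ((g * τ)⁻¹ * φ' ^ j') x = x) →
      χ (lucasT hℓ hℓN hℓS j - lucasT hℓ' hℓN' hℓS' j') ∈ I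

theorem CharLevel.mono {O : Type} [CommRing O]
    {χ : CuspForm.heckeAlgebra N 2 (↑S : Set ℕ) →+* O} {I : Ideal O} {τ : GQ}
    {L L' : IntermediateField ℚ Qbar} (h : CharLevel χ I τ L) (hLL' : L ≤ L') :
    CharLevel χ I τ L' :=
  fun ℓ hℓ hℓN hℓS A hA φ hφ ℓ' hℓ' hℓN' hℓS' A' hA' φ' hφ' j j' g hg hg' =>
    h ℓ hℓ hℓN hℓS A hA φ hφ ℓ' hℓ' hℓN' hℓS' A' hA' φ' hφ' j j' g
      (fun x hx => hg x (hLL' hx)) (fun x hx => hg' x (hLL' hx))

theorem exists_level_char (h30 : Fermat.Agent.ES.J7.Skeleton4.S30Stmt)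
    (p : ℕ) [Fact p.Prime] (hpS : p ∈ S) (hNS : ∀ q : ℕ, q.Prime → q ∣ N → q ∈ S)
    (O : Type) [CommRing O] [IsDomain O] [IsDiscreteValuationRing O]
    [IsAdicComplete (maximalIdeal O) O] [Finite (ResidueField O)] [CharZero O]
    (hpO : (p : O) ∈ maximalIdeal O) (χ : CuspForm.heckeAlgebra N 2 (↑S : Set ℕ) →+* O)
    (q : ℕ) (hq : q.Prime) (hqS : q ∉ S) (P : ValuationSubring Qbar) (hP : P.LiesOverPrime q)
    (τ : GQ) (hτ : τ ∈ P.inertiaSubgroupIn ℚ) (n : ℕ) :
    ∃ L : IntermediateField ℚ Qbar, FiniteDimensional ℚ L ∧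
      CharLevel χ (maximalIdeal O ^ n) τ L := by
  obtain ⟨O'', i1, i2, i3, i4, i5, i6, i7, i8, i9, hinj, ρ, hcp, hunr⟩ :=
    h30 p N S hpS hNS O hpO χ
  obtain ⟨e, he⟩ := exists_ramification_bound hinj
  have hρ : HasHeckeCharpoly ρ ((algebraMap O O'').comp χ) := hcp
  obtain ⟨L, hL, hLt⟩ := exists_level_trace ρ _ hρ (e * n)
  have hqN : ¬ q ∣ N := fun h => hqS (hNS q hq h)
  have hqp : q ≠ p := fun h => hqS (h ▸ hpS)
  have hτ1 : ρ.ρ τ = 1 := hunr q hq hqN hqp P hP τ hτ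
  refine ⟨L, hL, fun ℓ hℓ hℓN hℓS A hA φ hφ ℓ' hℓ' hℓN' hℓS' A' hA' φ' hφ' j j' g hg hg' => ?_⟩
  apply he
  have h1 := hLt ℓ hℓ hℓN hℓS A hA φ hφ j g hg
  have h2 := hLt ℓ' hℓ' hℓN' hℓS' A' hA' φ' hφ' j' (g * τ) hg'
  rw [map_mul, hτ1, mul_one] at h2
  have := Ideal.sub_mem _ h1 h2
  rw [sub_sub_sub_cancel_right, ← map_sub] at this
  exact this

end Approx

/-! ### Assembly -/

section Assembly

variable {p : ℕ} {N : ℕ} [NeZero N] {S : Finset ℕ}
  {𝒪 : Type} [CommRing 𝒪] [IsDomain 𝒪] [IsDiscreteValuationRing 𝒪]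
  [IsAdicComplete (IsLocalRing.maximalIdeal 𝒪) 𝒪]
  {θ : CuspForm.heckeAlgebra N 2 (↑S : Set ℕ) →+* IsLocalRing.ResidueField 𝒪}
  {T : Type} [CommRing T] [IsLocalRing T] [IsNoetherianRing T]
  [IsAdicComplete (IsLocalRing.maximalIdeal T) T] [Algebra 𝒪 T] [IsLocalHom (algebraMap 𝒪 T)]
  [Module.Finite 𝒪 T] [Module.Free 𝒪 T]

/-- **(D)**: the trace of `H.ρ` is invariant under right translation by an inertia element at
`q ∉ S`. -/
theorem trace_mul_inertia (h30 : Fermat.Agent.ES.J7.Skeleton4.S30Stmt) (hred : ReducedStmt)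
    (hsep : SepStmt) (hp : p.Prime)
    (hp𝒪 : (p : 𝒪) ∈ IsLocalRing.maximalIdeal 𝒪) (hpS : p ∈ S)
    (hNS : ∀ q : ℕ, q.Prime → q ∣ N → q ∈ S)
    (H : CuspForm.HeckeGaloisRepDatum N (↑S : Set ℕ) 𝒪 θ T)
    (q : ℕ) (hq : q.Prime) (hqS : q ∉ S) (P : ValuationSubring Qbar) (hP : P.LiesOverPrime q)
    (τ : GQ) (hτ : τ ∈ P.inertiaSubgroupIn ℚ) (g : GQ) :
    LinearMap.trace T H.ρ.V (H.ρ.ρ (g * τ)) = LinearMap.trace T H.ρ.V (H.ρ.ρ g) := by
  classical
  haveI : Fact p.Prime := ⟨hp⟩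
  haveI := hred N S hNS
  haveI : Module.Finite ℤ (CuspForm.heckeAlgebra N 2 (↑S : Set ℕ)) := Fermat.Agent.S22.result N 2 _
  obtain ⟨D⟩ := hsep p (CuspForm.heckeAlgebra N 2 (↑S : Set ℕ))
  rw [← sub_eq_zero]
  refine IsHausdorff.haus' (I := maximalIdeal T) _ fun m => ?_
  rw [smul_eq_mul, Ideal.mul_top]
  obtain ⟨n, hn⟩ := D.sep m
  -- the levels
  have hchar : ∀ i : D.ι, ∃ L : IntermediateField ℚ Qbar, FiniteDimensional ℚ L ∧
      CharLevel (D.χ i) (maximalIdeal (D.O i) ^ n) τ L := fun i =>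
    exists_level_char h30 p hpS hNS (D.O i) (D.p_mem i) (D.χ i) q hq hqS P hP τ hτ n
  choose Li hLi hLi' using hchar
  have hρ : HasHeckeCharpoly H.ρ H.π := H.charpoly_frob
  obtain ⟨LT, hLT, hLT'⟩ := exists_level_trace H.ρ H.π hρ m
  let L : IntermediateField ℚ Qbar := LT ⊔ ⨆ i, Li i
  haveI : FiniteDimensional ℚ L := by
    haveI := hLT
    haveI : ∀ i, FiniteDimensional ℚ (Li i) := hLi
    haveI : FiniteDimensional ℚ (⨆ i, Li i : IntermediateField ℚ Qbar) :=
      IntermediateField.finiteDimensional_iSup_of_finite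
    exact IntermediateField.finiteDimensional_sup _ _
  have hLT_le : LT ≤ L := le_sup_left
  have hLi_le : ∀ i, Li i ≤ L := fun i => (le_iSup Li i).trans le_sup_right
  -- Chebotarev, twice
  obtain ⟨ℓ, A, φ, j, hℓ, hℓS, hA, hφ, hg⟩ :=
    Fermat.Agent.ES.GAL.ChebQbar23.exists_frobenius_inv_mul_pow_fixes L g S
  obtain ⟨ℓ', A', φ', j', hℓ', hℓS', hA', hφ', hg'⟩ :=
    Fermat.Agent.ES.GAL.ChebQbar23.exists_frobenius_inv_mul_pow_fixes L (g * τ) S
  have hℓN : ¬ ℓ ∣ N := fun h => hℓS (hNS ℓ hℓ h)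
  have hℓN' : ¬ ℓ' ∣ N := fun h => hℓS' (hNS ℓ' hℓ' h)
  have hℓS₀ : ℓ ∉ (↑S : Set ℕ) := by simpa using hℓS
  have hℓS₀' : ℓ' ∉ (↑S : Set ℕ) := by simpa using hℓS'
  -- the two approximations in `T`
  have h1 := (hLT'.mono hLT_le) ℓ hℓ hℓN hℓS₀ A hA φ hφ j g hg
  have h2 := (hLT'.mono hLT_le) ℓ' hℓ' hℓN' hℓS₀' A' hA' φ' hφ' j' (g * τ) hg'
  -- the difference is `p`-adically small in the Hecke algebra
  obtain ⟨s, hs⟩ := hn (lucasT hℓ hℓN hℓS₀ j - lucasT hℓ' hℓN' hℓS₀' j') fun i =>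
    ((hLi' i).mono (hLi_le i)) ℓ hℓ hℓN hℓS₀ A hA φ hφ ℓ' hℓ' hℓN' hℓS₀' A' hA' φ' hφ' j j' g hg hg'
  have hpT : (p : T) ∈ maximalIdeal T := by
    have h0 : algebraMap 𝒪 T (p : 𝒪) ∈ maximalIdeal T :=
      map_nonunit (algebraMap 𝒪 T) _ hp𝒪
    rwa [map_natCast] at h0
  have h3 : H.π (lucasT hℓ hℓN hℓS₀ j) - H.π (lucasT hℓ' hℓN' hℓS₀' j') ∈ maximalIdeal T ^ m := by
    rw [← map_sub, hs, map_mul, map_pow, map_natCast]
    exact Ideal.mul_mem_right _ _ (Ideal.pow_mem_pow hpT m)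
  have h4 := Ideal.sub_mem _ (Ideal.sub_mem _ h1 h2) h3
  have h5 : H.π (lucasT hℓ hℓN hℓS₀ j) - LinearMap.trace T H.ρ.V (H.ρ.ρ g) -
      (H.π (lucasT hℓ' hℓN' hℓS₀' j') - LinearMap.trace T H.ρ.V (H.ρ.ρ (g * τ))) -
      (H.π (lucasT hℓ hℓN hℓS₀ j) - H.π (lucasT hℓ' hℓN' hℓS₀' j')) =
      LinearMap.trace T H.ρ.V (H.ρ.ρ (g * τ)) - LinearMap.trace T H.ρ.V (H.ρ.ρ g) := by ring
  rw [h5] at h4
  exact SModEq.zero.mpr h4

/-- **S31 from the contracts** (literal frozen shape). -/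
theorem s31_of_contracts (h30 : Fermat.Agent.ES.J7.Skeleton4.S30Stmt) (hred : ReducedStmt)
    (hsep : SepStmt) (hpair : TracePairStmt) (hp : p.Prime)
    (hp𝒪 : (p : 𝒪) ∈ IsLocalRing.maximalIdeal 𝒪) (hpS : p ∈ S)
    (hNS : ∀ q : ℕ, q.Prime → q ∣ N → q ∈ S)
    (H : CuspForm.HeckeGaloisRepDatum N (↑S : Set ℕ) 𝒪 θ T)
    (q : ℕ) (hq : q.Prime) (hqS : q ∉ S) :
    H.ρ.IsUnramifiedAt q :=
  fun P hP τ hτ => hpair T H.ρ H.residual_absIrr τ fun g =>
    trace_mul_inertia h30 hred hsep hp hp𝒪 hpS hNS H q hq hqS P hP τ hτ g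

end Assembly

end Fermat.Agent.ES.S31.Skeleton27
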