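/-
S31 glue (helper27): the contract `Skeleton27.SepStmt` from helper3's `Sep3.exists_sep_family`,
and the contract `Skeleton27.TracePairStmt` from helper13's `TraceRigid13.eq_one_of_trace_mul_eq`.
After this file the only open inputs of `Skeleton27.s31_of_contracts` are `S30Stmt` (Program J) and
`ReducedStmt` (chapter PET).
-/
import Mathlib
import Fermat.Agent.ES.S31.Skeleton27
import Fermat.Agent.ES.ALG31.Sep3
import Fermat.Agent.ES.ALG31.TraceRigid13

set_option autoImplicit false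

open IsLocalRing

namespace Fermat.Agent.ES.S31.SepGlue27

open Fermat.Agent.ES.S31.Skeleton27

/-- in a discrete valuation ring, a power of the maximal ideal is contained in `(x)`, `x ≠ 0`. -/
theorem exists_pow_le_span {𝒪 : Type*} [CommRing 𝒪] [IsDomain 𝒪]
    [IsDiscreteValuationRing 𝒪] {x : 𝒪} (hx : x ≠ 0) :
    ∃ e : ℕ, maximalIdeal 𝒪 ^ e ≤ Ideal.span {x} := by
  obtain ⟨ϖ, hϖ⟩ := IsDiscreteValuationRing.exists_irreducible 𝒪
  have hne : Ideal.span {x} ≠ ⊥ := by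
    rw [Ne, Ideal.span_singleton_eq_bot]
    exact hx
  obtain ⟨e, he⟩ := IsDiscreteValuationRing.ideal_eq_span_pow_irreducible hne hϖ
  refine ⟨e, ?_⟩
  rw [he, hϖ.maximalIdeal_eq, Ideal.span_singleton_pow]

/-- **(SEP)** in the shape of the skeleton. -/
theorem sepStmt : SepStmt := by
  intro p hp R _ _ _ _
  classical
  have : Module.Free ℤ R := inferInstance
  obtain ⟨J, hJ, 𝒪, i1, i2, i3, i4, i5, i6, χ, hpm, c, hc⟩ :=
    Fermat.Agent.ES.ALG31.Sep3.exists_sep_family R p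
  have hp0 : ∀ j, (p : 𝒪 j) ≠ 0 := fun j => by
    exact_mod_cast hp.out.ne_zero
  choose e he using fun j => exists_pow_le_span (hp0 j)
  refine ⟨{ ι := J, O := 𝒪, p_mem := hpm, χ := χ, sep := fun m => ?_ }⟩
  refine ⟨(∑ j, e j) * (m + c), fun r hr => ?_⟩
  have h1 : ∀ j, (p : 𝒪 j) ^ (m + c) ∣ χ j r := fun j => by
    have hle : e j * (m + c) ≤ (∑ j, e j) * (m + c) :=
      Nat.mul_le_mul_right _ (Finset.single_le_sum (fun _ _ => Nat.zero_le _) (Finset.mem_univ j))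
    have h2 : maximalIdeal (𝒪 j) ^ ((∑ j, e j) * (m + c)) ≤ Ideal.span {(p : 𝒪 j) ^ (m + c)} := by
      refine (Ideal.pow_le_pow_right hle).trans ?_
      rw [pow_mul, ← Ideal.span_singleton_pow]
      exact Ideal.pow_right_mono (he j) _
    exact Ideal.mem_span_singleton.mp (h2 (hr j))
  obtain ⟨s, hs⟩ := hc (m + c) r h1
  rw [Nat.add_sub_cancel] at hs
  exact ⟨s, hs⟩

/-- **(PAIR)** in the shape of the skeleton. -/
theorem tracePairStmt : TracePairStmt := fun _ _ _ ρ habs τ h =>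
  Fermat.Agent.ES.ALG31.TraceRigid13.eq_one_of_trace_mul_eq ρ habs τ h

/-- S31 from S30 and the reducedness of the anemic Hecke algebra (literal frozen shape of S31). -/
theorem s31_of_s30_of_reduced {p : ℕ} {N : ℕ} [NeZero N] {S : Finset ℕ}
    {𝒪 : Type} [CommRing 𝒪] [IsDomain 𝒪] [IsDiscreteValuationRing 𝒪]
    [IsAdicComplete (IsLocalRing.maximalIdeal 𝒪) 𝒪]
    {θ : CuspForm.heckeAlgebra N 2 (↑S : Set ℕ) →+* IsLocalRing.ResidueField 𝒪}
    {T : Type} [CommRing T] [IsLocalRing T] [IsNoetherianRing T]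
    [IsAdicComplete (IsLocalRing.maximalIdeal T) T] [Algebra 𝒪 T] [IsLocalHom (algebraMap 𝒪 T)]
    [Module.Finite 𝒪 T] [Module.Free 𝒪 T]
    (h30 : Fermat.Agent.ES.J7.Skeleton4.S30Stmt) (hred : ReducedStmt) (hp : p.Prime)
    (hp𝒪 : (p : 𝒪) ∈ IsLocalRing.maximalIdeal 𝒪) (hpS : p ∈ S)
    (hNS : ∀ q : ℕ, q.Prime → q ∣ N → q ∈ S)
    (H : CuspForm.HeckeGaloisRepDatum N (↑S : Set ℕ) 𝒪 θ T)
    (q : ℕ) (hq : q.Prime) (hqS : q ∉ S) :
    H.ρ.IsUnramifiedAt q :=
  s31_of_contracts h30 hred sepStmt tracePairStmt hp hp𝒪 hpS hNS H q hq hqS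

end Fermat.Agent.ES.S31.SepGlue27
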